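import Fermat.Agent.JCov.Points
import Fermat.Agent.JPC.Chart
import Fermat.Agent.JPic.LDOpen

/-!
# S25, cover: evaluation of line data at `k`-points, over a field
-/

set_option autoImplicit false

universe u

open TensorProduct Polynomial

noncomputable section

namespace Fermat.Agent.JCov

open Fermat.Agent.JPC Fermat.Agent.JPic

variable {k : Type u} [Field k] {X : TwoChart k} {K : Type u} [Field K] [Algebra k K]
  {L : PreLD X K}

theorem incl_smul (A0 : Subalgebra k X.A) [Module (K ⊗[k] A0) L.M]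
    (h : ∀ (b : K) (a : A0) (m : L.M), (b ⊗ₜ[k] a : K ⊗[k] A0) • m = b • (a : X.A) • m)
    (s : K ⊗[k] A0) (m : L.M) : (incl K A0 s) • m = s • m := by
  induction s using TensorProduct.induction_on with
  | zero => rw [map_zero, zero_smul (K ⊗[k] X.A) m, zero_smul (K ⊗[k] A0) m]
  | tmul b a => rw [h]; rfl
  | add u v hu hv => rw [map_add, add_smul, add_smul, hu, hv]

theorem smul_sub_mem (y : X.A →ₐ[k] k) (r : K ⊗[k] X.A) (m : L.M) :
    r • m - (yK K y r) • m ∈ L.mulSub {a | y a = 0} ⊤ := by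
  induction r using TensorProduct.induction_on with
  | zero => rw [map_zero, zero_smul (K ⊗[k] X.A) m, zero_smul K m, sub_zero]; exact zero_mem _
  | tmul b a =>
    have h1 : (b ⊗ₜ[k] a : K ⊗[k] X.A) • m - (yK K y (b ⊗ₜ a)) • m =
        b • ((a - algebraMap k X.A (y a)) • m) := by
      rw [yK_tmul, PreLD.tmul_smul, sub_smul, smul_sub, mul_smul, algebraMap_smul, algebraMap_smul]
    rw [h1]
    refine Submodule.smul_mem _ _ (Submodule.subset_span ⟨_, ?_, m, Submodule.mem_top, rfl⟩)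
    show y (a - algebraMap k X.A (y a)) = 0
    rw [map_sub, AlgHom.commutes]
    exact sub_self _
  | add u v hu hv =>
    have : (u + v) • m - (yK K y (u + v)) • m =
        (u • m - (yK K y u) • m) + (v • m - (yK K y v) • m) := by
      rw [map_add, add_smul, add_smul]; abel
    rw [this]
    exact add_mem hu hv

theorem smul_mem_of_yK {y : X.A →ₐ[k] k} {r : K ⊗[k] X.A} (hr : yK K y r = 0) (m : L.M) :
    r • m ∈ L.mulSub {a | y a = 0} ⊤ := by
  have := smul_sub_mem y r m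
  rwa [hr, zero_smul K m, sub_zero] at this

theorem smul_sub_mem' (A0 : Subalgebra k X.A) (N : Submodule K L.M) (y : X.A →ₐ[k] k)
    (r : K ⊗[k] A0) (m : L.M) (hm : m ∈ N) :
    (incl K A0 r) • m - (yK K y (incl K A0 r)) • m ∈ L.mulSub {a | a ∈ A0 ∧ y a = 0} N := by
  induction r using TensorProduct.induction_on with
  | zero => rw [map_zero, map_zero, zero_smul (K ⊗[k] X.A) m, zero_smul K m, sub_zero]; exact zero_mem _
  | tmul b a =>
    have h1 : (incl K A0 (b ⊗ₜ[k] a)) • m - (yK K y (incl K A0 (b ⊗ₜ a))) • m =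
        b • (((a : X.A) - algebraMap k X.A (y a)) • m) := by
      rw [incl_tmul, yK_tmul, PreLD.tmul_smul, sub_smul, smul_sub, mul_smul, algebraMap_smul,
        algebraMap_smul]
    rw [h1]
    refine Submodule.smul_mem _ _ (Submodule.subset_span ⟨_, ⟨?_, ?_⟩, m, hm, rfl⟩)
    · exact sub_mem a.2 (A0.algebraMap_mem _)
    · rw [map_sub, AlgHom.commutes]
      exact sub_self _
  | add u v hu hv =>
    have : (incl K A0 (u + v)) • m - (yK K y (incl K A0 (u + v))) • m =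
        ((incl K A0 u) • m - (yK K y (incl K A0 u)) • m) +
        ((incl K A0 v) • m - (yK K y (incl K A0 v)) • m) := by
      rw [map_add, map_add, add_smul, add_smul]; abel
    rw [this]
    exact add_mem hu hv

section Dual

variable {n : ℕ} (j : L.M →ₗ[K ⊗[k] X.A] (Fin n → K ⊗[k] X.A))
  (q : (Fin n → K ⊗[k] X.A) →ₗ[K ⊗[k] X.A] L.M)

/-- the coordinate functionals at `y` -/
def eF (y : X.A →ₐ[k] k) (i : Fin n) : L.M →ₗ[K] K :=
  (yK K y).toLinearMap ∘ₗ (LinearMap.proj i) ∘ₗ (j.restrictScalars K)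

theorem eF_apply (y : X.A →ₐ[k] k) (i : Fin n) (m : L.M) : eF j y i m = yK K y (j m i) := rfl

theorem eF_smul' (y : X.A →ₐ[k] k) (i : Fin n) (r : K ⊗[k] X.A) (m : L.M) :
    eF j y i (r • m) = yK K y r * eF j y i m := by
  rw [eF_apply, eF_apply, map_smul, Pi.smul_apply, smul_eq_mul, map_mul]

theorem eF_smul (y : X.A →ₐ[k] k) (i : Fin n) (a : X.A) (m : L.M) :
    eF j y i (a • m) = algebraMap k K (y a) * eF j y i m := by
  have h := eF_smul' j y i ((1 : K) ⊗ₜ[k] a) m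
  rw [PreLD.tmul_smul, one_smul, yK_tmul, one_mul] at h
  exact h

theorem eF_eq_zero {y : X.A →ₐ[k] k} {m : L.M} (hm : m ∈ L.mulSub {a | y a = 0} ⊤) (i : Fin n) :
    eF j y i m = 0 := by
  have : L.mulSub {a | y a = 0} ⊤ ≤ LinearMap.ker (eF j y i) := by
    refine Submodule.span_le.mpr ?_
    rintro _ ⟨a, ha, m, -, rfl⟩
    have ha' : y a = 0 := ha
    show eF j y i (a • m) = 0
    rw [eF_smul, ha', map_zero, zero_mul]
  exact this hm

variable {j q}

theorem mem_of_eF (hqj : ∀ m, q (j m) = m) {y : X.A →ₐ[k] k} {m : L.M}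
    (hm : ∀ i, eF j y i m = 0) : m ∈ L.mulSub {a | y a = 0} ⊤ := by
  rw [← hqj m, q_eq_sum]
  exact Submodule.sum_mem _ fun i _ => smul_mem_of_yK (hm i) _

theorem mem_of_eF' (hqj : ∀ m, q (j m) = m) (A0 : Subalgebra k X.A) (N : Submodule K L.M)
    (hj : ∀ m ∈ N, ∀ i, ∃ s : K ⊗[k] A0, j m i = incl K A0 s)
    (hq : ∀ s : Fin n → K ⊗[k] X.A, (∀ i, ∃ s0 : K ⊗[k] A0, s i = incl K A0 s0) → q s ∈ N)
    {y : X.A →ₐ[k] k} {m : L.M} (hmN : m ∈ N) (hm : ∀ i, eF j y i m = 0) :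
    m ∈ L.mulSub {a | a ∈ A0 ∧ y a = 0} N := by
  rw [← hqj m, q_eq_sum]
  refine Submodule.sum_mem _ fun i _ => ?_
  obtain ⟨s, hs⟩ := hj m hmN i
  have h1 : yK K y (incl K A0 s) = 0 := by rw [← hs]; exact hm i
  rw [hs]
  have h2 := smul_sub_mem' (L := L) A0 N y s (q (Pi.single i 1)) (hq _ fun l => by
    exact single_incl A0 i l)
  rwa [h1, zero_smul K, sub_zero] at h2

end Dual

theorem mem_twist0 (hL : L.IsLine) {y : X.A →ₐ[k] k} {m : L.M} (hm : m ∈ L.M0)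
    (h : m ∈ L.mulSub {a | y a = 0} ⊤) : m ∈ L.mulSub {a | a ∈ X.A0 ∧ y a = 0} L.M0 := by
  obtain ⟨n, j, q, hqj, hj, hq⟩ := exists_dual0 L hL
  exact mem_of_eF' hqj X.A0 L.M0 hj hq hm fun i => eF_eq_zero j h i

theorem mem_twist1 (hL : L.IsLine) {y : X.A →ₐ[k] k} {m : L.M} (hm : m ∈ L.M1)
    (h : m ∈ L.mulSub {a | y a = 0} ⊤) : m ∈ L.mulSub {a | a ∈ X.A1 ∧ y a = 0} L.M1 := by
  obtain ⟨n, j, q, hqj, hj, hq⟩ := exists_dual1 L hL
  exact mem_of_eF' hqj X.A1 L.M1 hj hq hm fun i => eF_eq_zero j h i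

/-- a nonzero element does not vanish at some `k`-point -/
theorem exists_notMem [IsAlgClosed k] (hL : L.IsLine) {s : L.M} (hs : s ≠ 0) :
    ∃ y : X.A →ₐ[k] k, s ∉ L.mulSub {a | y a = 0} ⊤ := by
  obtain ⟨n, j, q, hqj, hj, hq⟩ := exists_dual0 L hL
  obtain ⟨i, hi⟩ : ∃ i, j s i ≠ 0 := by
    by_contra hcon
    push Not at hcon
    apply hs
    rw [← hqj s]
    have : j s = 0 := funext hcon
    rw [this, map_zero]
  obtain ⟨y, hy⟩ := exists_point_K X K _ hi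
  exact ⟨y, fun h => hy (eF_eq_zero j h i)⟩

/-- the rank one property on `M0` -/
theorem rank_one (hL : L.IsLine) (f : L.M →ₗ[K ⊗[k] X.A] K ⊗[k] X.A) {m m' : L.M}
    (hm : m ∈ L.M0) (hm' : m' ∈ L.M0) : f m • m' = f m' • m := by
  have := hL.inv0
  have hincl : ∀ (s : K ⊗[k] X.A0) (x : L.M), (incl K X.A0 s) • x = s • x :=
    incl_smul X.A0 (fun _ _ _ => rfl)
  let β : L.M0' →ₗ[K ⊗[k] X.A0] L.M0' →ₗ[K ⊗[k] X.A0] L.M :=
    LinearMap.mk₂ (K ⊗[k] X.A0) (fun x x' => f (x : L.M) • (x' : L.M))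
      (fun x y z => by
        show f ((x : L.M) + y) • (z : L.M) = _
        rw [map_add, add_smul])
      (fun s x z => by
        show f (s • (x : L.M)) • (z : L.M) = _
        rw [← hincl, map_smul, smul_eq_mul, mul_smul, hincl])
      (fun x y z => smul_add _ _ _)
      (fun s x z => by
        show f (x : L.M) • (s • (z : L.M)) = s • (f (x : L.M) • (z : L.M))
        rw [← hincl, ← hincl, smul_comm])
  have h1 : (⟨m, hm⟩ : L.M0') ⊗ₜ[K ⊗[k] X.A0] (⟨m', hm'⟩ : L.M0') = ⟨m', hm'⟩ ⊗ₜ ⟨m, hm⟩ :=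
    Module.Invertible.tmul_comm
  exact congrArg (TensorProduct.lift β) h1

theorem rank_one' (hL : L.IsLine) (f : L.M →ₗ[K ⊗[k] X.A] K ⊗[k] X.A) (m m' : L.M) :
    f m • m' = f m' • m := by
  obtain ⟨n, hn⟩ := L.ex0 m
  obtain ⟨p, hp⟩ := L.ex0 m'
  have h1 := rank_one hL f hn hp
  have hsm : ∀ (a : X.A) (x : L.M), a • x = ((1 : K) ⊗ₜ[k] a : K ⊗[k] X.A) • x := fun a x => by
    rw [PreLD.tmul_smul, one_smul]
  have key : ∀ (u v c d : K ⊗[k] X.A) (x z : L.M), (u * c) • v • z = (v * d) • u • x →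
      (u * v) • (c • z) = (u * v) • (d • x) := fun u v c d x z h => by
    rw [← mul_smul, ← mul_smul] at h ⊢
    rw [show u * v * c = u * c * v by ring, h, show u * v * d = v * d * u by ring]
  rw [hsm, hsm, map_smul, map_smul, smul_eq_mul, smul_eq_mul] at h1
  have h3 := key _ _ _ _ _ _ h1
  have hu : ((1 : K) ⊗ₜ[k] (((X.t⁻¹ : X.Aˣ) : X.A) ^ (n + p)) : K ⊗[k] X.A) *
      (((1 : K) ⊗ₜ[k] ((X.t : X.A) ^ n) : K ⊗[k] X.A) * ((1 : K) ⊗ₜ[k] ((X.t : X.A) ^ p))) = 1 := by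
    rw [Algebra.TensorProduct.tmul_mul_tmul, Algebra.TensorProduct.tmul_mul_tmul, ← pow_add,
      ← mul_pow, Units.inv_mul, one_pow, one_mul, one_mul]
    rfl
  have hcan : ∀ (c u : K ⊗[k] X.A) (x z : L.M), c * u = 1 → u • x = u • z → x = z :=
    fun c u x z h h' => by
      rw [← one_smul (K ⊗[k] X.A) x, ← one_smul (K ⊗[k] X.A) z, ← h, mul_smul, mul_smul, h']
  exact hcan _ _ _ _ hu h3

/-- **Evaluation at a `k`-point.** -/
theorem exists_eval (hL : L.IsLine) (y : X.A →ₐ[k] k) {s : L.M}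
    (hs : s ∉ L.mulSub {a | y a = 0} ⊤) : ∃ e : L.M →ₗ[K] K,
    (∀ m, e m = 0 ↔ m ∈ L.mulSub {a | y a = 0} ⊤) ∧ e s ≠ 0 := by
  obtain ⟨n, j, q, hqj, hj, hq⟩ := exists_dual0 L hL
  obtain ⟨i, hi⟩ : ∃ i, eF j y i s ≠ 0 := by
    by_contra hcon
    push Not at hcon
    exact hs (mem_of_eF hqj hcon)
  refine ⟨eF j y i, fun m => ⟨fun hm => mem_of_eF hqj fun l => ?_, fun hm => eF_eq_zero j hm i⟩, hi⟩
  have h1 := rank_one' hL ((LinearMap.proj i).comp j : L.M →ₗ[K ⊗[k] X.A] K ⊗[k] X.A) m s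
  have h2 := congrArg (eF j y l) h1
  rw [eF_smul', eF_smul'] at h2
  have h3 : eF j y i m * eF j y l s = eF j y i s * eF j y l m := h2
  rw [hm, zero_mul] at h3
  exact (mul_eq_zero.mp h3.symm).resolve_left hi

end Fermat.Agent.JCov
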