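import Fermat.Agent.JPic.LDOpen
import Fermat.Agent.JPC.Chart

/-!
# S25, CoverStmt: a twist at infinity kills the first cohomology
-/

set_option autoImplicit false

universe u

open TensorProduct

namespace Fermat.Agent.JCov

open Fermat.Agent.JPC

variable {k : Type u} [Field k] {X : TwoChart k} {B : Type u} [CommRing B] [Algebra k B]

theorem mem_twistInf_M1 {L : PreLD X B} {n : ℕ} {m : L.M}
    (h : (((X.t⁻¹ : X.Aˣ) : X.A) ^ n) • m ∈ L.M1) : m ∈ (L.twistInf n).M1 := by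
  refine ⟨_, h, ?_⟩
  show ((X.t : X.A) ^ n) • (((X.t⁻¹ : X.Aˣ) : X.A) ^ n) • m = m
  rw [← mul_smul, ← mul_pow, Units.mul_inv, one_pow, one_smul]

theorem le_twistInf_M1 (L : PreLD X B) (n : ℕ) : L.M1 ≤ (L.twistInf n).M1 :=
  fun _ hm => mem_twistInf_M1 (L.tn_mem1 hm n)

/-- after a large twist at infinity the first cohomology vanishes -/
theorem exists_twistInf_sup {L : PreLD X B} (hL : L.IsLine) :
    ∃ n, (L.twistInf n).M0 ⊔ (L.twistInf n).M1 = ⊤ := by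
  classical
  have hfin := JPic.finite_coker L hL
  obtain ⟨s, hs⟩ := hfin
  obtain ⟨f, hf⟩ : ∃ f : L.M ⧸ (L.M0 ⊔ L.M1) → L.M, ∀ z, Submodule.Quotient.mk (f z) = z :=
    ⟨Quotient.out, fun z => Quotient.out_eq' z⟩
  obtain ⟨n, hn⟩ := L.exFin1 (s.image f)
  refine ⟨n, ?_⟩
  let N : Submodule B L.M := (L.twistInf n).M0 ⊔ (L.twistInf n).M1
  have hN0 : L.M0 ⊔ L.M1 ≤ N := by
    refine sup_le ?_ ?_
    · exact (le_sup_left : (L.twistInf n).M0 ≤ _)
    · exact (le_twistInf_M1 L n).trans le_sup_right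
  have hN1 : N.map (L.M0 ⊔ L.M1).mkQ = ⊤ := by
    rw [eq_top_iff, ← hs, Submodule.span_le]
    intro z hz
    refine ⟨f z, ?_, hf z⟩
    exact (le_sup_right : (L.twistInf n).M1 ≤ N)
      (mem_twistInf_M1 (hn _ (Finset.mem_image_of_mem f hz)))
  show N = ⊤
  rw [eq_top_iff]
  intro m _
  have h1 : (L.M0 ⊔ L.M1).mkQ m ∈ N.map (L.M0 ⊔ L.M1).mkQ := by rw [hN1]; trivial
  obtain ⟨m', hm', h2⟩ := h1
  have h3 : m - m' ∈ L.M0 ⊔ L.M1 := by
    rw [← Submodule.Quotient.eq]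
    exact h2.symm
  have h4 := N.add_mem (hN0 h3) hm'
  rwa [sub_add_cancel] at h4

end Fermat.Agent.JCov
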