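import Fermat.Agent.JCov.Step
import Fermat.Agent.JCov.Inf
import Fermat.Agent.JTw.Line
import Fermat.Agent.JF.Index

/-!
# S25, cover: every line datum over an algebraically closed field lies, after a twist, in a chart
-/

set_option autoImplicit false

universe u

namespace Fermat.Agent.JCov

open Fermat.Agent.JPC Fermat.Agent.JPic

variable {k : Type u} [Field k]

theorem exists_twist_acyclic [IsAlgClosed k] {X : TwoChart k} {K : Type u} [Field K]
    [Algebra k K] (L : PreLD X K) (hL : L.IsLine) :
    ∃ (n : ℕ) (l : List (X.A →ₐ[k] k)),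
      ((L.twistInf n).twistPts l).IsLine ∧ ((L.twistInf n).twistPts l).Acyclic := by
  obtain ⟨n, hn⟩ := exists_twistInf_sup hL
  obtain ⟨l, hl, hl'⟩ := exists_twistPts (fun L y hL => JTw.isLine_twistPt L y hL)
    (L.twistInf n) (JTw.isLine_twistInf L n hL) hn
  exact ⟨n, l, hl, hl'⟩

/-- **Block I.** -/
theorem coverStmt [IsAlgClosed k] (X : TwoChart k) : CoverStmt X := by
  intro K _ _ _ L hL
  obtain ⟨n, l, hl, hl'⟩ := exists_twist_acyclic L hL
  obtain ⟨ι, hι⟩ := JF.exists_index hl hl'
  exact ⟨n, l, ι, hι⟩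

end Fermat.Agent.JCov
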