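import Fermat.Agent.JPC.Defs

/-!
# S25, cover: `k`-points of the curve are dense
-/

set_option autoImplicit false

universe u

open TensorProduct Polynomial

noncomputable section

namespace Fermat.Agent.JCov

open Fermat.Agent.JPC

variable {k : Type u} [Field k] (X : TwoChart k)

instance isDomain_A : IsDomain X.A := by
  have h := X.dom k
  exact (Algebra.TensorProduct.lid k X.A).symm.injective.isDomain
    (Algebra.TensorProduct.lid k X.A).symm.toRingHom

theorem finiteType_A : Algebra.FiniteType k X.A := by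
  classical
  let S : Set X.A := {(X.t : X.A), ((X.t⁻¹ : X.Aˣ) : X.A)} ∪ Set.range X.b0
  have hfin : S.Finite := (Set.toFinite _).union (Set.finite_range _)
  have htop : Algebra.adjoin k S = ⊤ := by
    rw [eq_top_iff]
    rintro a -
    have ht : (X.t : X.A) ∈ Algebra.adjoin k S := Algebra.subset_adjoin (by simp [S])
    have hti : ((X.t⁻¹ : X.Aˣ) : X.A) ∈ Algebra.adjoin k S := Algebra.subset_adjoin (by simp [S])
    obtain ⟨n, hn⟩ := X.ex0 a
    obtain ⟨f, hf, -⟩ := X.b0_basis _ hn
    have h1 : (X.t : X.A) ^ n * a ∈ Algebra.adjoin k S := by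
      rw [hf]
      refine Subalgebra.sum_mem _ fun i _ => Subalgebra.mul_mem _ ?_
        (Algebra.subset_adjoin (Or.inr ⟨i, rfl⟩))
      have h2 : aeval (X.t : X.A) (f i) ∈ Algebra.adjoin k {(X.t : X.A)} := by
        rw [Algebra.adjoin_singleton_eq_range_aeval]
        exact ⟨f i, rfl⟩
      exact Algebra.adjoin_mono (by simp [S]) h2
    have h3 : a = ((X.t⁻¹ : X.Aˣ) : X.A) ^ n * ((X.t : X.A) ^ n * a) := by
      rw [← mul_assoc, ← mul_pow, Units.inv_mul, one_pow, one_mul]
    rw [h3]
    exact Subalgebra.mul_mem _ (Subalgebra.pow_mem _ hti n) h1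
  exact ⟨⟨hfin.toFinset, by rw [Set.Finite.coe_toFinset, htop]⟩⟩

/-- Nullstellensatz -/
theorem exists_algHom_of_finiteType [IsAlgClosed k] (R : Type*) [CommRing R] [Nontrivial R]
    [Algebra k R] [Algebra.FiniteType k R] : Nonempty (R →ₐ[k] k) := by
  obtain ⟨m, hm⟩ := Ideal.exists_maximal R
  let _ : Field (R ⧸ m) := Ideal.Quotient.field m
  have h1 : Algebra.FiniteType k (R ⧸ m) := Algebra.FiniteType.of_surjective
    (Ideal.Quotient.mkₐ k m) (Ideal.Quotient.mkₐ_surjective k m)
  have h2 : Module.Finite k (R ⧸ m) := finite_of_finite_type_of_isJacobsonRing k (R ⧸ m)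
  have h3 : Function.Bijective (algebraMap k (R ⧸ m)) :=
    IsAlgClosed.algebraMap_bijective_of_isIntegral
  let e : k ≃ₐ[k] (R ⧸ m) := AlgEquiv.ofBijective (Algebra.ofId k (R ⧸ m)) h3
  exact ⟨(e.symm : (R ⧸ m) →ₐ[k] k).comp (Ideal.Quotient.mkₐ k m)⟩

theorem exists_point [IsAlgClosed k] (a : X.A) (ha : a ≠ 0) : ∃ y : X.A →ₐ[k] k, y a ≠ 0 := by
  have h0 := finiteType_A X
  have h1 : Algebra.FiniteType k (Localization.Away a) :=
    Algebra.FiniteType.trans h0 inferInstance
  have h2 : Nontrivial (Localization.Away a) := by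
    refine (IsLocalization.injective (Localization.Away a) (M := Submonoid.powers a) ?_).nontrivial
    exact powers_le_nonZeroDivisors_of_noZeroDivisors ha
  obtain ⟨z⟩ := exists_algHom_of_finiteType (k := k) (Localization.Away a)
  refine ⟨z.comp (IsScalarTower.toAlgHom k X.A (Localization.Away a)), ?_⟩
  have h3 : IsUnit (algebraMap X.A (Localization.Away a) a) := IsLocalization.Away.algebraMap_isUnit a
  exact (h3.map z).ne_zero

section K

variable (K : Type u) [Field K] [Algebra k K]

/-- evaluation at a `k`-point, over `K` -/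
def yK {A : Type u} [CommRing A] [Algebra k A] (y : A →ₐ[k] k) : K ⊗[k] A →ₐ[K] K :=
  Algebra.TensorProduct.lift (AlgHom.id K K) ((Algebra.ofId k K).comp y)
    (fun _ _ => Commute.all _ _)

@[simp] theorem yK_tmul {A : Type u} [CommRing A] [Algebra k A] (y : A →ₐ[k] k) (c : K) (a : A) :
    yK K y (c ⊗ₜ a) = c * algebraMap k K (y a) := by
  rw [yK, Algebra.TensorProduct.lift_tmul]
  rfl

theorem exists_point_K [IsAlgClosed k] (f : K ⊗[k] X.A) (hf : f ≠ 0) :
    ∃ y : X.A →ₐ[k] k, yK K y f ≠ 0 := by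
  classical
  let b := Module.Basis.ofVectorSpace k K
  let E := TensorProduct.equivFinsuppOfBasisLeft (N := X.A) b
  have h1 : E f ≠ 0 := fun h => hf ((LinearEquiv.map_eq_zero_iff E).mp h)
  obtain ⟨i, hi⟩ : ∃ i, E f i ≠ 0 := by
    by_contra hcon
    push Not at hcon
    exact h1 (Finsupp.ext hcon)
  obtain ⟨y, hy⟩ := exists_point X _ hi
  refine ⟨y, fun h0 => hy ?_⟩
  have key : ∀ g : K ⊗[k] X.A, b.repr (yK K y g) i = y (E g i) := by
    intro g
    induction g using TensorProduct.induction_on with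
    | zero => simp
    | tmul c a =>
      rw [yK_tmul, mul_comm, ← Algebra.smul_def, map_smul]
      have : E (c ⊗ₜ a) i = b.repr c i • a := by
        simp [E]
      rw [this, map_smul, Finsupp.smul_apply, smul_eq_mul, smul_eq_mul, mul_comm]
    | add x z hx hz =>
      rw [map_add, map_add, map_add, Finsupp.add_apply, Finsupp.add_apply, hx, hz, map_add]
  rw [← key f, h0]
  simp

end K

end Fermat.Agent.JCov
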