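import Fermat.Agent.JCov.Eval

/-!
# S25, cover: twisting down by points
-/

set_option autoImplicit false

universe u

open TensorProduct Polynomial

noncomputable section

namespace Fermat.Agent.JCov

open Fermat.Agent.JPC Fermat.Agent.JPic

variable {k : Type u} [Field k] {X : TwoChart k} {K : Type u} [Field K] [Algebra k K]
  {L : PreLD X K}

theorem mulSub_le0 (L : PreLD X K) (y : X.A →ₐ[k] k) :
    L.mulSub {a | a ∈ X.A0 ∧ y a = 0} L.M0 ≤ L.M0 := by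
  refine Submodule.span_le.mpr ?_
  rintro _ ⟨a, ha, m, hm, rfl⟩
  exact L.smul0 a ha.1 m hm

theorem mulSub_le1 (L : PreLD X K) (y : X.A →ₐ[k] k) :
    L.mulSub {a | a ∈ X.A1 ∧ y a = 0} L.M1 ≤ L.M1 := by
  refine Submodule.span_le.mpr ?_
  rintro _ ⟨a, ha, m, hm, rfl⟩
  exact L.smul1 a ha.1 m hm

theorem twistPt_sup (hL : L.IsLine) (hs : L.M0 ⊔ L.M1 = ⊤) (y : X.A →ₐ[k] k) {s : L.M}
    (hs0 : s ∈ L.M0) (hs1 : s ∈ L.M1) (hsy : s ∉ L.mulSub {a | y a = 0} ⊤) :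
    (L.twistPt y).M0 ⊔ (L.twistPt y).M1 = ⊤ := by
  obtain ⟨e, he, hes⟩ := exists_eval hL y hsy
  refine eq_top_iff.mpr ?_
  rintro ⟨x, hx⟩ -
  have hx' : x ∈ L.M0 ⊔ L.M1 := by rw [hs]; exact Submodule.mem_top
  obtain ⟨m0, hm0, m1, hm1, hm⟩ := Submodule.mem_sup.mp hx'
  have hex : e m0 + e m1 = 0 := by rw [← map_add, hm]; exact (he x).mpr hx
  have h0 : m0 - (e m0 / e s) • s ∈ L.mulSub {a | y a = 0} ⊤ := by
    rw [← he, map_sub, map_smul, smul_eq_mul, div_mul_cancel₀ _ hes, sub_self]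
  have h1 : m1 + (e m0 / e s) • s ∈ L.mulSub {a | y a = 0} ⊤ := by
    rw [← he, map_add, map_smul, smul_eq_mul, div_mul_cancel₀ _ hes, add_comm]
    exact hex
  refine Submodule.mem_sup.mpr ⟨⟨_, h0⟩, ?_, ⟨_, h1⟩, ?_, ?_⟩
  · exact mem_twist0 hL (sub_mem hm0 (L.M0.smul_mem _ hs0)) h0
  · exact mem_twist1 hL (add_mem hm1 (L.M1.smul_mem _ hs1)) h1
  · refine Subtype.ext ?_
    show (m0 - (e m0 / e s) • s) + (m1 + (e m0 / e s) • s) = x
    rw [← hm]
    abel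

theorem finrank_twistPt_lt [FiniteDimensional K (L.M0 ⊓ L.M1 : Submodule K L.M)]
    (y : X.A →ₐ[k] k) {s : L.M}
    (hs0 : s ∈ L.M0) (hs1 : s ∈ L.M1) (hsy : s ∉ L.mulSub {a | y a = 0} ⊤) :
    Module.finrank K ((L.twistPt y).M0 ⊓ (L.twistPt y).M1 : Submodule K (L.twistPt y).M) <
      Module.finrank K (L.M0 ⊓ L.M1 : Submodule K L.M) := by
  let ι : (L.twistPt y).M →ₗ[K] L.M := (L.mulSub {a | y a = 0} ⊤).subtype
  have hι : Function.Injective ι := Subtype.val_injective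
  have h1 : ((L.twistPt y).M0 ⊓ (L.twistPt y).M1).map ι < L.M0 ⊓ L.M1 := by
    refine lt_of_le_of_ne ?_ ?_
    · rintro _ ⟨x, hx, rfl⟩
      exact ⟨mulSub_le0 L y hx.1, mulSub_le1 L y hx.2⟩
    · intro h
      have : s ∈ ((L.twistPt y).M0 ⊓ (L.twistPt y).M1).map ι := by
        rw [h]; exact ⟨hs0, hs1⟩
      obtain ⟨x, -, rfl⟩ := this
      exact hsy x.2
  have h2 := Submodule.finrank_lt_finrank_of_lt h1
  rwa [(LinearEquiv.finrank_eq (Submodule.equivMapOfInjective ι hι _)).symm] at h2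

theorem finite_H0 (hL : L.IsLine) : FiniteDimensional K (L.M0 ⊓ L.M1 : Submodule K L.M) := by
  obtain ⟨G, hG, h⟩ := exists_fg_H0 L hL
  have : FiniteDimensional K G := Module.Finite.iff_fg.mpr hG
  exact Submodule.finiteDimensional_of_le h

theorem exists_twistPts_aux [IsAlgClosed k]
    (hT : ∀ (L : PreLD X K) (y : X.A →ₐ[k] k), L.IsLine → (L.twistPt y).IsLine)
    (L : PreLD X K) (n : ℕ) : ∀ l : List (X.A →ₐ[k] k), (L.twistPts l).IsLine →
      (L.twistPts l).M0 ⊔ (L.twistPts l).M1 = ⊤ →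
      Module.finrank K ((L.twistPts l).M0 ⊓ (L.twistPts l).M1 : Submodule K (L.twistPts l).M) ≤ n →
      ∃ l' : List (X.A →ₐ[k] k), (L.twistPts l').IsLine ∧ (L.twistPts l').Acyclic := by
  induction n with
  | zero =>
    intro l hl hs hr
    have := finite_H0 hl
    refine ⟨l, hl, ?_, ?_⟩
    · rw [disjoint_iff]
      exact Submodule.finrank_eq_zero.mp (Nat.le_zero.mp hr)
    · rw [codisjoint_iff]
      exact hs
  | succ n ih =>
    intro l hl hs hr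
    have := finite_H0 hl
    by_cases h0 : (L.twistPts l).M0 ⊓ (L.twistPts l).M1 = ⊥
    · exact ⟨l, hl, disjoint_iff.mpr h0, codisjoint_iff.mpr hs⟩
    · obtain ⟨s, hs1, hs2⟩ := (Submodule.ne_bot_iff _).mp h0
      obtain ⟨y, hy⟩ := exists_notMem hl hs2
      refine ih (y :: l) (hT _ y hl) (twistPt_sup hl hs y hs1.1 hs1.2 hy) ?_
      have := finrank_twistPt_lt y hs1.1 hs1.2 hy
      exact Nat.lt_succ_iff.mp (lt_of_lt_of_le this hr)

theorem exists_twistPts [IsAlgClosed k]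
    (hT : ∀ (L : PreLD X K) (y : X.A →ₐ[k] k), L.IsLine → (L.twistPt y).IsLine)
    (L : PreLD X K) (hL : L.IsLine) (hs : L.M0 ⊔ L.M1 = ⊤) :
    ∃ l' : List (X.A →ₐ[k] k), (L.twistPts l').IsLine ∧ (L.twistPts l').Acyclic :=
  exists_twistPts_aux hT L _ [] hL hs le_rfl

end Fermat.Agent.JCov
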